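import Mathlib

/-!
# Row LT, tower T6, leaf T6.20e.2e.3 `TwStdC75` (helper379): the core in coordinates

Mathlib only.  `δ ∈ GL₂(ℂ)` with `δ δ̄ = γ`, `γ = [[a, b], [c, d]]` real with
`n² = det γ - (tr γ / 2)²`, `n ≠ 0`, and `(u + i w)² = tr γ / 2 + i n`.  Then there is an
invertible `Y` with `δ Ȳ = Y [[u, -w], [w, u]]`:

    Y = (u - i w) ξ (1, -i) + (δ ξ̄) (1, i),    ξ = ((a - d)/2 - i n, c)ᵀ

(`ξ` is an eigenvector of `γ` for `m - i n`, `δ ξ̄` one for `m + i n` because `δ` commutes with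
`γ`; `det Y = 4 n (u - i w) (δ ξ̄)₂`).
-/

set_option autoImplicit false

open scoped ComplexConjugate

noncomputable section

namespace Fermat.Agent.LT.T6.H379

open Complex

/-- **The core of `TwStdC75`, in coordinates.** -/
theorem twStd_core379 (a b c d n u w : ℝ) (x11 x12 x21 x22 : ℂ)
    (hn : n ≠ 0) (hn2 : n ^ 2 = a * d - b * c - ((a + d) / 2) ^ 2)
    (hu : u ^ 2 - w ^ 2 = (a + d) / 2) (hw : 2 * u * w = n)
    (hdet : x11 * x22 - x12 * x21 ≠ 0)
    (H11 : x11 * conj x11 + x12 * conj x21 = a)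
    (H12 : x11 * conj x12 + x12 * conj x22 = b)
    (H21 : x21 * conj x11 + x22 * conj x21 = c)
    (H22 : x21 * conj x12 + x22 * conj x22 = d) :
    ∃ y11 y12 y21 y22 : ℂ, y11 * y22 - y12 * y21 ≠ 0 ∧
      x11 * conj y11 + x12 * conj y21 = y11 * u + y12 * w ∧
      x11 * conj y12 + x12 * conj y22 = y11 * (-w) + y12 * u ∧
      x21 * conj y11 + x22 * conj y21 = y21 * u + y22 * w ∧
      x21 * conj y12 + x22 * conj y22 = y21 * (-w) + y22 * u := by
  -- the hypotheses over `ℂ`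
  have hn2c : (n : ℂ) ^ 2 = a * d - b * c - ((a + d) / 2) ^ 2 := by exact_mod_cast hn2
  have huc : (u : ℂ) ^ 2 - (w : ℂ) ^ 2 = (a + d) / 2 := by exact_mod_cast hu
  have hwc : 2 * (u : ℂ) * w = n := by exact_mod_cast hw
  have hnc : (n : ℂ) ≠ 0 := by exact_mod_cast hn
  -- the conjugate relations `δ̄ δ = γ`
  have H11' : conj x11 * x11 + conj x12 * x21 = a := by
    have := congrArg conj H11
    simpa using this
  have H21' : conj x21 * x11 + conj x22 * x21 = c := by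
    have := congrArg conj H21
    simpa using this
  -- `c ≠ 0`
  have hc : c ≠ 0 := by
    intro h0
    have h1 : n ^ 2 = -((a - d) / 2) ^ 2 := by rw [hn2, h0]; ring
    have h2 : 0 < n ^ 2 := by positivity
    nlinarith [sq_nonneg ((a - d) / 2)]
  have hcc : (c : ℂ) ≠ 0 := by exact_mod_cast hc
  -- `u - i w ≠ 0`
  have hP : (u : ℂ) - I * w ≠ 0 := by
    intro h0
    have h1 : ((u : ℂ) - I * w) * ((u : ℂ) + I * w) = 0 := by rw [h0, zero_mul]
    have h2 : ((u : ℂ) - I * w) * ((u : ℂ) + I * w) = ((u ^ 2 + w ^ 2 : ℝ) : ℂ) := by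
      push_cast
      linear_combination (-(w : ℂ) ^ 2) * I_sq
    rw [h2] at h1
    have h3 : u ^ 2 + w ^ 2 = 0 := by exact_mod_cast h1
    have hu0 : u = 0 := by nlinarith [sq_nonneg u, sq_nonneg w]
    apply hn
    rw [← hw, hu0]
    ring
  -- `δ` commutes with `γ`
  have C1 : (b : ℂ) * x21 = c * x12 := by
    linear_combination (-x11) * H11 + (-x21) * H12 + x11 * H11' + x12 * H21'
  have C3 : (c : ℂ) * (x11 - x22) = (a - d) * x21 := by
    linear_combination (-x11) * H21 + (-x21) * H22 + x21 * H11' + x22 * H21'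
  -- the vectors
  have hI3 : (I : ℂ) ^ 3 = -I := by rw [pow_succ, I_sq]; ring
  have hI4 : (I : ℂ) ^ 4 = 1 := by rw [pow_succ, hI3]; simp
  obtain ⟨ξ1, hξ1⟩ : ∃ z : ℂ, z = (a - d) / 2 - I * n := ⟨_, rfl⟩
  obtain ⟨ξb, hξb⟩ : ∃ z : ℂ, z = (a - d) / 2 + I * n := ⟨_, rfl⟩
  obtain ⟨η1, hη1⟩ : ∃ z : ℂ, z = x11 * ξb + x12 * c := ⟨_, rfl⟩
  obtain ⟨η2, hη2⟩ : ∃ z : ℂ, z = x21 * ξb + x22 * c := ⟨_, rfl⟩
  obtain ⟨P, hPdef⟩ : ∃ z : ℂ, z = (u : ℂ) - I * w := ⟨_, rfl⟩
  have hP' : P ≠ 0 := by rw [hPdef]; exact hP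
  have c2 : conj (2 : ℂ) = 2 := map_ofNat _ 2
  have cξ1 : conj ξ1 = ξb := by
    rw [hξ1, hξb, map_sub, map_div₀, map_sub, map_mul, conj_ofReal, conj_ofReal, conj_ofReal,
      conj_I, c2]
    ring
  have cξb : conj ξb = ξ1 := by
    rw [hξ1, hξb, map_add, map_div₀, map_sub, map_mul, conj_ofReal, conj_ofReal, conj_ofReal,
      conj_I, c2]
    ring
  have cP : conj P = (u : ℂ) + I * w := by
    rw [hPdef, map_sub, map_mul, conj_ofReal, conj_ofReal, conj_I]
    ring
  -- the relation `c η₁ = ξ̄₁ η₂`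
  have R : (c : ℂ) * η1 = ξb * η2 := by
    have e : ξb * ξ1 = -(b * c) := by
      rw [hξ1, hξb]
      linear_combination (-(n : ℂ) ^ 2) * I_sq + hn2c
    have e2 : (a : ℂ) - d - ξb = ξ1 := by rw [hξ1, hξb]; ring
    rw [hη1, hη2]
    linear_combination ξb * C3 + (-(c : ℂ)) * C1 + x21 * e + (x21 * ξb) * e2
  refine ⟨P * ξ1 + η1, -I * P * ξ1 + I * η1, P * c + η2, -I * P * c + I * η2, ?_, ?_, ?_, ?_, ?_⟩
  · -- the determinant
    have hd : (P * ξ1 + η1) * (-I * P * c + I * η2) - (-I * P * ξ1 + I * η1) * (P * c + η2)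
        = 2 * I * P * (ξ1 * η2 - c * η1) := by ring
    rw [hd]
    have h1 : ξ1 * η2 - c * η1 = -(2 * I * n) * η2 := by
      rw [R, hξ1, hξb]
      ring
    rw [h1]
    have hη2ne : η2 ≠ 0 := by
      intro h0
      have h2 : (c : ℂ) * η1 = 0 := by rw [R, h0, mul_zero]
      have h3 : η1 = 0 := by
        rcases mul_eq_zero.1 h2 with h | h
        · exact absurd h hcc
        · exact h
      apply hdet
      have h4 : (x11 * x22 - x12 * x21) * c = 0 := by
        have e1 : x11 * ξb + x12 * c = 0 := by rw [← hη1]; exact h3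
        have e2 : x21 * ξb + x22 * c = 0 := by rw [← hη2]; exact h0
        linear_combination x11 * e2 - x21 * e1
      rcases mul_eq_zero.1 h4 with h | h
      · exact h
      · exact absurd h hcc
    have hI : (I : ℂ) ≠ 0 := I_ne_zero
    have h2 : (2 : ℂ) ≠ 0 := two_ne_zero
    exact mul_ne_zero (mul_ne_zero (mul_ne_zero h2 hI) hP')
      (mul_ne_zero (neg_ne_zero.2 (mul_ne_zero (mul_ne_zero h2 hI) hnc)) hη2ne)
  · simp only [map_add, map_mul, map_neg, cξ1, cP, conj_I, conj_ofReal, hη1, hη2, cξb]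
    rw [hPdef, hξ1, hξb]
    linear_combination (norm := skip) ((a - d) / 2 - I * n) * H11 + c * H12 + hn2c
      - ((a - d) / 2 - I * n) * huc + I * ((a - d) / 2 - I * n) * hwc
    ring_nf
    simp only [I_sq, hI3, hI4]
    ring
  · simp only [map_add, map_mul, map_neg, cξ1, cP, conj_I, conj_ofReal, hη1, hη2, cξb]
    rw [hPdef, hξ1, hξb]
    linear_combination (norm := skip) (-I) * (((a - d) / 2 - I * n) * H11 + c * H12 + hn2c
      - ((a - d) / 2 - I * n) * huc + I * ((a - d) / 2 - I * n) * hwc)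
    ring_nf
    simp only [I_sq, hI3, hI4]
    ring
  · simp only [map_add, map_mul, map_neg, cξ1, cP, conj_I, conj_ofReal, hη1, hη2, cξb]
    rw [hPdef, hξ1, hξb]
    linear_combination (norm := skip) ((a - d) / 2 - I * n) * H21 + c * H22 - c * huc
      + I * c * hwc
    ring_nf
    simp only [I_sq, hI3, hI4]
    ring
  · simp only [map_add, map_mul, map_neg, cξ1, cP, conj_I, conj_ofReal, hη1, hη2, cξb]
    rw [hPdef, hξ1, hξb]
    linear_combination (norm := skip) (-I) * (((a - d) / 2 - I * n) * H21 + c * H22 - c * huc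
      + I * c * hwc)
    ring_nf
    simp only [I_sq, hI3, hI4]
    ring

end Fermat.Agent.LT.T6.H379
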