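import Mathlib
import Fermat.Agent.LT.T6.H75.EllTwSpec
import Fermat.Agent.LT.T6.H379.TwStdCore

/-!
# Row LT, tower T6, leaf T6.20e.2e.3 `TwStdC75` (helper379)

OFF-MAIN.  `twStdC379 : H75.TwStdC75`, unconditional: if `δ δ̄ = γ` with `γ ∈ GL₂(ℝ)` elliptic,
`D = det γ`, `θ = thetaOf634 γ`, then `y⁻¹ δ ȳ = D^{1/4} k_{θ/2}` for some `y ∈ GL₂(ℂ)`.

The algebra is `twStd_core379` (`TwStdCore.lean`, Mathlib only); here the half-angle formulas
(`half_angle379`) and the translation between `GL₂` and coordinates.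
-/

set_option autoImplicit false

open scoped Matrix ComplexConjugate

noncomputable section

namespace Fermat.Agent.LT.T6.H379

open Fermat.Agent.LT.T6 Fermat.Agent.LT.T6.H189 Fermat.Agent.LT.T6.H634 Fermat.Agent.LT.T6.H75

/-- The half-angle formulas: `(D^{1/4} e^{iθ/2})² = m + i √(D - m²)`, `θ = arccos (m / √D)`. -/
theorem half_angle379 (D m : ℝ) (hD : 0 < D) (hm : m ^ 2 < D) :
    (Real.exp (Real.log D / 4) * Real.cos (Real.arccos (m / Real.sqrt D) / 2)) ^ 2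
        - (Real.exp (Real.log D / 4) * Real.sin (Real.arccos (m / Real.sqrt D) / 2)) ^ 2 = m ∧
      2 * (Real.exp (Real.log D / 4) * Real.cos (Real.arccos (m / Real.sqrt D) / 2))
        * (Real.exp (Real.log D / 4) * Real.sin (Real.arccos (m / Real.sqrt D) / 2))
        = Real.sqrt (D - m ^ 2) := by
  set r : ℝ := Real.exp (Real.log D / 4) with hr
  set θ : ℝ := Real.arccos (m / Real.sqrt D) with hθ
  have hsD : 0 < Real.sqrt D := Real.sqrt_pos.2 hD
  have hsD2 : Real.sqrt D ^ 2 = D := Real.sq_sqrt hD.le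
  -- `r² = √D`
  have hr2 : r ^ 2 = Real.sqrt D := by
    have h1 : (r ^ 2) ^ 2 = D := by
      rw [hr, ← Real.exp_nat_mul, ← Real.exp_nat_mul]
      have : ((2 : ℕ) : ℝ) * (((2 : ℕ) : ℝ) * (Real.log D / 4)) = Real.log D := by
        push_cast; ring
      rw [this, Real.exp_log hD]
    have h2 : 0 ≤ r ^ 2 := sq_nonneg r
    rw [← h1, Real.sqrt_sq h2]
  -- `x = m / √D`
  have hx2 : (m / Real.sqrt D) ^ 2 < 1 := by
    rw [div_pow, hsD2, div_lt_one hD]
    exact hm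
  have hx1 : -1 ≤ m / Real.sqrt D := by
    nlinarith [sq_nonneg (m / Real.sqrt D + 1), sq_nonneg (m / Real.sqrt D - 1)]
  have hx1' : m / Real.sqrt D ≤ 1 := by
    nlinarith [sq_nonneg (m / Real.sqrt D + 1), sq_nonneg (m / Real.sqrt D - 1)]
  have hcos : Real.cos θ = m / Real.sqrt D := Real.cos_arccos hx1 hx1'
  have hsin : Real.sin θ = Real.sqrt (1 - (m / Real.sqrt D) ^ 2) := Real.sin_arccos _
  have hc2 : Real.cos θ = Real.cos (θ / 2) ^ 2 - Real.sin (θ / 2) ^ 2 := by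
    have h := Real.cos_two_mul (θ / 2)
    have h' := Real.sin_sq_add_cos_sq (θ / 2)
    have e : 2 * (θ / 2) = θ := by ring
    rw [e] at h
    nlinarith
  have hs2 : Real.sin θ = 2 * Real.sin (θ / 2) * Real.cos (θ / 2) := by
    have h := Real.sin_two_mul (θ / 2)
    have e : 2 * (θ / 2) = θ := by ring
    rw [e] at h
    exact h
  constructor
  · have : (r * Real.cos (θ / 2)) ^ 2 - (r * Real.sin (θ / 2)) ^ 2
        = r ^ 2 * (Real.cos (θ / 2) ^ 2 - Real.sin (θ / 2) ^ 2) := by ring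
    rw [this, ← hc2, hcos, hr2]
    field_simp
  · have : 2 * (r * Real.cos (θ / 2)) * (r * Real.sin (θ / 2))
        = r ^ 2 * (2 * Real.sin (θ / 2) * Real.cos (θ / 2)) := by ring
    rw [this, ← hs2, hsin, hr2, ← Real.sqrt_mul hD.le]
    congr 1
    rw [div_pow, hsD2]
    field_simp

/-- **Leaf T6.20e.2e.3 `TwStdC75`.** -/
theorem twStdC379 : TwStdC75 := by
  intro γ hγ δ hδ
  -- the relation `δ δ̄ = γ`
  have h2 : δ * glAut (starRingAut : ℂ ≃+* ℂ) δ
      = Matrix.GeneralLinearGroup.map (algebraMap ℝ ℂ) γ := by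
    rw [← hδ]
    simp [twNorm, twN]
  have hent : ∀ i j : Fin 2,
      δ i 0 * conj (δ 0 j) + δ i 1 * conj (δ 1 j) = ((γ i j : ℝ) : ℂ) := by
    intro i j
    have := congrArg (fun g : GL (Fin 2) ℂ => g i j) h2
    simpa [Matrix.mul_apply, Fin.sum_univ_two, glAut] using this
  -- the real data
  have hdisc : (γ 0 0 + γ 1 1) ^ 2 - 4 * (γ 0 0 * γ 1 1 - γ 0 1 * γ 1 0) < 0 := by
    have := hγ
    unfold disc at this
    rw [Matrix.trace_fin_two, Matrix.det_fin_two] at this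
    exact this
  have hdetγ : (γ : Matrix (Fin 2) (Fin 2) ℝ).det = γ 0 0 * γ 1 1 - γ 0 1 * γ 1 0 :=
    Matrix.det_fin_two _
  set D : ℝ := γ 0 0 * γ 1 1 - γ 0 1 * γ 1 0 with hDdef
  set m : ℝ := (γ 0 0 + γ 1 1) / 2 with hmdef
  have hmD : m ^ 2 < D := by
    rw [hmdef]
    nlinarith
  have hD : 0 < D := lt_of_le_of_lt (sq_nonneg m) hmD
  have hθ : thetaOf634 γ = Real.arccos (m / Real.sqrt D) := by
    unfold thetaOf634
    rw [Matrix.trace_fin_two, hdetγ, hmdef]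
    congr 1
    have : Real.sqrt D ≠ 0 := (Real.sqrt_pos.2 hD).ne'
    field_simp
  obtain ⟨hu, hw⟩ := half_angle379 D m hD hmD
  have hnpos : 0 < Real.sqrt (D - m ^ 2) := Real.sqrt_pos.2 (by linarith)
  have hn2 : Real.sqrt (D - m ^ 2) ^ 2
      = γ 0 0 * γ 1 1 - γ 0 1 * γ 1 0 - ((γ 0 0 + γ 1 1) / 2) ^ 2 := by
    rw [Real.sq_sqrt (by linarith)]
  have hdetδ : δ 0 0 * δ 1 1 - δ 0 1 * δ 1 0 ≠ 0 := by
    have h := (Matrix.isUnits_det_units δ).ne_zero
    rwa [Matrix.det_fin_two] at h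
  obtain ⟨y11, y12, y21, y22, hy, e11, e12, e21, e22⟩ :=
    twStd_core379 (γ 0 0) (γ 0 1) (γ 1 0) (γ 1 1) (Real.sqrt (D - m ^ 2))
      (Real.exp (Real.log D / 4) * Real.cos (Real.arccos (m / Real.sqrt D) / 2))
      (Real.exp (Real.log D / 4) * Real.sin (Real.arccos (m / Real.sqrt D) / 2))
      (δ 0 0) (δ 0 1) (δ 1 0) (δ 1 1) hnpos.ne' hn2 hu hw hdetδ
      (hent 0 0) (hent 0 1) (hent 1 0) (hent 1 1)
  refine ⟨Matrix.GeneralLinearGroup.mkOfDetNeZero !![y11, y12; y21, y22]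
    (by rwa [Matrix.det_fin_two_of]), ?_⟩
  rw [mul_assoc, inv_mul_eq_iff_eq_mul, hdetγ, hθ]
  apply Matrix.GeneralLinearGroup.ext
  intro i j
  fin_cases i <;> fin_cases j
  · simp [Matrix.mul_apply, Fin.sum_univ_two, glAut, sclC, dgC, rotR, Matrix.vecMul,
      dotProduct]
    push_cast at e11 ⊢
    linear_combination e11
  · simp [Matrix.mul_apply, Fin.sum_univ_two, glAut, sclC, dgC, rotR, Matrix.vecMul,
      dotProduct]
    push_cast at e12 ⊢
    linear_combination e12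
  · simp [Matrix.mul_apply, Fin.sum_univ_two, glAut, sclC, dgC, rotR, Matrix.vecMul,
      dotProduct]
    push_cast at e21 ⊢
    linear_combination e21
  · simp [Matrix.mul_apply, Fin.sum_univ_two, glAut, sclC, dgC, rotR, Matrix.vecMul,
      dotProduct]
    push_cast at e22 ⊢
    linear_combination e22

end Fermat.Agent.LT.T6.H379
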